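/-
P-SS2 row 1075 (SS2-C5f-1 PHI-SHARP), helper62: the modular polynomial of prime level `q` in
Kronecker form with SHARP degree bounds (`Fermat.Agent.H22.SS2.PhiSharpStatement q`).

`Φ(J₁, T) = (T - j(t^(q²))) ∏_{b<q} (T - j(ζ^b t))`, `J₁ = j(t^q)`: the coefficient of `T^k` has
a pole of order at most `q² + q - k`, hence `deg_X φ_k ≤ q` for `1 ≤ k ≤ q`; the coefficient of
`T^q` is `- j(t^(q²)) + (pole order ≤ 1)`, hence `φ_q = - X^q + (lower)`; the constant
coefficient is `(-1)^(q+1) j(t^(q²)) ∏ j(ζ^b t)` with leading coefficient `1`, hence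
`φ_0 = X^(q+1) + (lower)`.
-/
import Fermat.Agent.H22.SS2.Cusp11Interfaces
import Fermat.Agent.H46.SS.CuspRho
import Fermat.Agent.H8.SS.KroneckerDelta

set_option autoImplicit false
set_option linter.style.haveILetI false
set_option linter.unusedSectionVars false

noncomputable section

open Polynomial ModularCurve

namespace Fermat.Agent.H62.SS2

open Fermat.Agent.H27 Fermat.Agent.H46.SS

/-! ### Leading coefficients -/

section lead

variable {R : Type*} [CommRing R]

/-- The coefficient of a product at the sum of the pole bounds. -/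
theorem phs_coeff_mul {a b : ℤ} {f g : LaurentSeries R} (hf : PoleLE a f) (hg : PoleLE b g) :
    (f * g).coeff (-(a + b)) = f.coeff (-a) * g.coeff (-b) := by
  rw [HahnSeries.coeff_mul]
  refine Finset.sum_eq_single ((-a, -b) : ℤ × ℤ) ?_ ?_
  · intro ij hij hne
    exfalso
    rw [Finset.mem_antidiagonal] at hij
    obtain ⟨h1, h2, h3⟩ := hij
    have h1' : -a ≤ ij.1 := by
      by_contra hc
      exact h1 (hf.coeff (not_le.mp hc))
    have h2' : -b ≤ ij.2 := by
      by_contra hc
      exact h2 (hg.coeff (not_le.mp hc))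
    apply hne
    ext
    · show ij.1 = -a
      linarith
    · show ij.2 = -b
      linarith
  · intro hnot
    rw [Finset.mem_antidiagonal] at hnot
    by_cases h1 : f.coeff (-a) = 0
    · rw [h1, zero_mul]
    · by_cases h2 : g.coeff (-b) = 0
      · rw [h2, mul_zero]
      · exfalso
        exact hnot ⟨h1, h2, by ring⟩

/-- The coefficient of a finite product at the sum of the pole bounds. -/
theorem phs_coeff_prod {ι : Type*} (S : Finset ι) (r : ι → LaurentSeries R) (m : ι → ℤ)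
    (hr : ∀ i ∈ S, PoleLE (m i) (r i)) :
    PoleLE (∑ i ∈ S, m i) (∏ i ∈ S, r i) ∧
      (∏ i ∈ S, r i).coeff (-(∑ i ∈ S, m i)) = ∏ i ∈ S, (r i).coeff (-(m i)) := by
  classical
  induction S using Finset.induction_on with
  | empty =>
    simp only [Finset.sum_empty, Finset.prod_empty, neg_zero]
    refine ⟨?_, ?_⟩
    · apply poleLE_of_coeff
      intro n hn
      rw [HahnSeries.coeff_one, if_neg]
      intro h0
      rw [h0] at hn
      simp at hn
    · rw [HahnSeries.coeff_one, if_pos rfl]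
  | insert a S ha ih =>
    obtain ⟨ih1, ih2⟩ := ih (fun i hi => hr i (Finset.mem_insert_of_mem hi))
    have hra := hr a (Finset.mem_insert_self a S)
    rw [Finset.sum_insert ha, Finset.prod_insert ha, Finset.prod_insert ha]
    refine ⟨hra.mul ih1, ?_⟩
    rw [phs_coeff_mul hra ih1, ih2]

/-- Powers. -/
theorem phs_poleLE_pow {m : ℤ} {f : LaurentSeries R} (hf : PoleLE m f) (n : ℕ) :
    PoleLE (n * m) (f ^ n) := by
  have h := (phs_coeff_prod (Finset.range n) (fun _ => f) (fun _ => m) (fun _ _ => hf)).1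
  rw [Finset.sum_const, Finset.prod_const, Finset.card_range, nsmul_eq_mul] at h
  exact h

end lead

/-! ### Evaluation at the base `j(t^q)` -/

section base

variable (q : ℕ) [NeZero q] {k : Type*} [Field k] [CharZero k]

/-- The coefficient of `φ(J₁)`, `J₁ = j(t^q)`, in degree `-q d` is the coefficient of `X^d`, for
`d ≥ deg φ`. -/
theorem phs_coeff_evalAt_baseS (φ : Polynomial ℤ) (d : ℕ) (hd : φ.natDegree ≤ d) :
    (evalAt (baseS k q) φ).coeff (-((q : ℤ) * d)) = (φ.coeff d : k) := by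
  rcases hd.eq_or_lt with h | h
  · rw [← h, coeff_evalAt_baseS]
    rfl
  · rw [coeff_eq_zero_of_natDegree_lt h, Int.cast_zero]
    have hX : (X ^ d : Polynomial ℤ).natDegree = d := natDegree_X_pow d
    have hlt : φ.natDegree < (X ^ d : Polynomial ℤ).natDegree := by rw [hX]; exact h
    have h1 := coeff_evalAt_baseS (k := k) q (φ + X ^ d)
    have h2 := coeff_evalAt_baseS (k := k) q (X ^ d : Polynomial ℤ)
    rw [natDegree_add_eq_right_of_natDegree_lt hlt, hX,
      leadingCoeff_add_of_degree_lt (degree_lt_degree hlt), map_add, HahnSeries.coeff_add] at h1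
    rw [hX] at h2
    rw [h2] at h1
    exact add_eq_right.mp h1

/-- From a pole bound to a degree bound. -/
theorem phs_natDegree_le_of_poleLE (φ : Polynomial ℤ) (m : ℤ) (d : ℕ)
    (h : PoleLE m (evalAt (baseS k q) φ)) (hm : m < (q : ℤ) * (d + 1)) : φ.natDegree ≤ d := by
  by_cases h0 : φ = 0
  · rw [h0, natDegree_zero]
    exact Nat.zero_le _
  by_contra hcon
  rw [not_le] at hcon
  have hq : (0 : ℤ) < q := by exact_mod_cast Nat.pos_of_ne_zero (NeZero.ne q)
  have hcon' : ((d : ℤ) + 1) ≤ (φ.natDegree : ℤ) := by exact_mod_cast hcon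
  have hlt : -((q : ℤ) * φ.natDegree) < -m := by
    have := mul_le_mul_of_nonneg_left hcon' hq.le
    linarith
  have h1 := h.coeff hlt
  rw [coeff_evalAt_baseS] at h1
  have h2 : φ.leadingCoeff = 0 := by exact_mod_cast h1
  exact h0 (leadingCoeff_eq_zero.mp h2)

end base

/-! ### The product of the roots of unity -/

theorem phs_prod_zeta {k : Type*} [Field k] (q : ℕ) (hq : q.Prime) (ζ : k)
    (hζ : IsPrimitiveRoot ζ q) : ∏ b ∈ Finset.range q, ζ ^ b = (-1) ^ (q + 1) := by
  rcases hq.eq_two_or_odd' with h2 | hodd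
  · subst h2
    have h := hζ.eq_neg_one_of_two_right
    rw [Finset.prod_range_succ, Finset.prod_range_one, pow_zero, pow_one, one_mul, h]
    norm_num
  · rw [Finset.prod_pow_eq_pow_sum, Finset.sum_range_id]
    obtain ⟨m, hm⟩ := hodd
    have h1 : q * (q - 1) / 2 = q * m := by
      rw [hm]
      have : (2 * m + 1) * (2 * m + 1 - 1) = 2 * ((2 * m + 1) * m) := by
        rw [Nat.add_sub_cancel]; ring
      rw [this, Nat.mul_div_cancel_left _ (by norm_num : 0 < 2)]
    rw [h1, pow_mul, hζ.pow_eq_one, one_pow]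
    have heven : Even (q + 1) := by
      rw [hm]
      exact ⟨m + 1, by ring⟩
    rw [heven.neg_one_pow]

/-! ### The coefficients of `Φ(J₁, T)` -/

section roots

variable (q : ℕ) [NeZero q] {k : Type*} [Field k] [CharZero k]

/-- The product over the finite roots. -/
def phsFin (ζ : kˣ) : Polynomial (LaurentSeries k) :=
  ∏ b ∈ Finset.range q, (X - C (rootFin (k := k) (ζ ^ b)))

theorem phs_rootFin_poleLE (ζ : kˣ) : PoleLE 1 (rootFin (k := k) ζ) :=
  (poleLE_jqModC (R := k)).twist ζ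

theorem phs_rootInf_poleLE : PoleLE ((q : ℤ) * q) (rootInf k q) := by
  have h := ((poleLE_jqModC (R := k)).qExpand q).qExpand q
  rw [mul_one] at h
  exact h

theorem phs_rootInf_coeff : (rootInf k q).coeff (-((q : ℤ) * q)) = 1 := by
  have h : -((q : ℤ) * q) = (q : ℤ) * ((q : ℤ) * (-1)) := by ring
  rw [h, rootInf, qExpand_coeff_mul, qExpand_coeff_mul]
  exact coeff_jqModC_neg_one k

theorem phs_rootFin_coeff (ζ : kˣ) : (rootFin (k := k) ζ).coeff (-1) = ((ζ⁻¹ : kˣ) : k) := by
  rw [rootFin, twist_coeff, coeff_jqModC_neg_one, mul_one, zpow_neg_one]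

theorem phsFin_coeff_poleLE (ζ : kˣ) (i : ℕ) :
    PoleLE ((q : ℤ) - i) ((phsFin q ζ).coeff i) := by
  have h := coeff_prod_poleLE (Finset.range q) (fun b => rootFin (k := k) (ζ ^ b)) 1
    (fun b _ => phs_rootFin_poleLE (ζ ^ b)) i
  rw [Finset.card_range, one_mul] at h
  exact h

theorem phsFin_monic (ζ : kˣ) : (phsFin q ζ).Monic :=
  monic_prod_of_monic _ _ (fun b _ => monic_X_sub_C _)

theorem phsFin_natDegree (ζ : kˣ) : (phsFin q ζ).natDegree = q := by
  rw [phsFin, natDegree_prod_of_monic _ _ (fun b _ => monic_X_sub_C _)]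
  simp

theorem phsFin_coeff_zero (ζ : kˣ) :
    (phsFin q ζ).coeff 0 = ∏ b ∈ Finset.range q, (-(rootFin (k := k) (ζ ^ b))) := by
  rw [coeff_zero_eq_eval_zero, phsFin, eval_prod]
  refine Finset.prod_congr rfl fun b _ => ?_
  rw [eval_sub, eval_X, eval_C, zero_sub]

/-- The leading coefficient of the constant term of the finite product. -/
theorem phsFin_coeff_zero_coeff (hq : q.Prime) (ζ : kˣ) (hζ : IsPrimitiveRoot (ζ : k) q) :
    ((phsFin q ζ).coeff 0).coeff (-(q : ℤ)) = -1 := by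
  rw [phsFin_coeff_zero]
  have h := (phs_coeff_prod (Finset.range q) (fun b => -(rootFin (k := k) (ζ ^ b)))
    (fun _ => (1 : ℤ)) (fun b _ => (phs_rootFin_poleLE (ζ ^ b)).neg)).2
  rw [Finset.sum_const, Finset.card_range, nsmul_eq_mul, mul_one] at h
  rw [h]
  have h1 : ∀ b ∈ Finset.range q, (-(rootFin (k := k) (ζ ^ b))).coeff (-1)
      = (-1) * (((ζ : k) ^ b)⁻¹) := by
    intro b _
    rw [HahnSeries.coeff_neg, phs_rootFin_coeff, neg_one_mul, Units.val_inv_eq_inv_val,
      Units.val_pow_eq_pow_val]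
  rw [Finset.prod_congr rfl h1, Finset.prod_mul_distrib, Finset.prod_const, Finset.card_range,
    Finset.prod_inv_distrib, phs_prod_zeta q hq (ζ : k) hζ]
  have h2 : ((-1 : k) ^ (q + 1))⁻¹ = (-1) ^ (q + 1) := by
    rw [← inv_pow]
    congr 1
    norm_num
  rw [h2, ← pow_add]
  have : q + (q + 1) = 2 * q + 1 := by ring
  rw [this, pow_succ, pow_mul]
  norm_num

variable (ζ : kˣ) (D : HeckeDataOver q k ζ)

/-- The coefficients of `Φ(J₁, T)`. -/
theorem phs_coeff_eq (i : ℕ) :
    evalAt (baseS k q) (D.Φ.coeff (i + 1)) =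
      (phsFin q ζ).coeff i - rootInf k q * (phsFin q ζ).coeff (i + 1) := by
  rw [← coeff_map, D.Φ_factor]
  show ((X - C (rootInf k q)) * phsFin q ζ).coeff (i + 1) = _
  rw [sub_mul, coeff_sub, coeff_X_mul, coeff_C_mul]

theorem phs_coeff_zero_eq :
    evalAt (baseS k q) (D.Φ.coeff 0) = -(rootInf k q) * (phsFin q ζ).coeff 0 := by
  rw [← coeff_map, D.Φ_factor]
  show ((X - C (rootInf k q)) * phsFin q ζ).coeff 0 = _
  rw [mul_coeff_zero, coeff_sub, coeff_X_zero, coeff_C_zero, zero_sub]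

/-- Sharp pole bound. -/
theorem phs_coeff_poleLE (hq : q.Prime) (i : ℕ) :
    PoleLE ((q : ℤ) * q + q - i) (evalAt (baseS k q) (D.Φ.coeff i)) := by
  have hq1 : (1 : ℤ) ≤ q := by exact_mod_cast hq.one_le
  cases i with
  | zero =>
    rw [phs_coeff_zero_eq]
    have h := ((phs_rootInf_poleLE (k := k) q).neg).mul (phsFin_coeff_poleLE q ζ 0)
    refine h.mono ?_
    push_cast
    linarith
  | succ i =>
    rw [phs_coeff_eq]
    refine PoleLE.sub ?_ ?_
    · refine (phsFin_coeff_poleLE q ζ i).mono ?_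
      push_cast
      nlinarith
    · refine ((phs_rootInf_poleLE (k := k) q).mul (phsFin_coeff_poleLE q ζ (i + 1))).mono ?_
      push_cast
      linarith

/-- `deg_X φ_i ≤ q` for `i ≥ 1`. -/
theorem phs_natDegree_coeff_le (hq : q.Prime) (i : ℕ) (hi : 1 ≤ i) :
    (D.Φ.coeff i).natDegree ≤ q := by
  refine phs_natDegree_le_of_poleLE (k := k) q _ _ q (phs_coeff_poleLE q ζ D hq i) ?_
  have hi' : (1 : ℤ) ≤ i := by exact_mod_cast hi
  nlinarith

/-- `deg_X φ_0 ≤ q + 1`. -/
theorem phs_natDegree_coeff_zero_le (hq : q.Prime) :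
    (D.Φ.coeff 0).natDegree ≤ q + 1 := by
  refine phs_natDegree_le_of_poleLE (k := k) q _ _ (q + 1) (phs_coeff_poleLE q ζ D hq 0) ?_
  have hq1 : (1 : ℤ) ≤ q := by exact_mod_cast hq.one_le
  push_cast
  nlinarith

/-- `φ_q = - X^q + (lower)`. -/
theorem phs_coeff_q_coeff_q (hq : q.Prime) : (D.Φ.coeff q).coeff q = -1 := by
  have hq2 : (2 : ℤ) ≤ q := by exact_mod_cast hq.two_le
  have hq1 : 1 ≤ q := hq.one_le
  have h1 := phs_coeff_evalAt_baseS (k := k) q (D.Φ.coeff q) q
    (phs_natDegree_coeff_le q ζ D hq q hq1)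
  obtain ⟨i, hi⟩ : ∃ i, q = i + 1 := ⟨q - 1, by omega⟩
  have h2 : evalAt (baseS k q) (D.Φ.coeff q) = (phsFin q ζ).coeff i - rootInf k q := by
    have h := phs_coeff_eq q ζ D i
    rw [← hi] at h
    rw [h]
    have hm := phsFin_monic q ζ
    have hc : (phsFin q ζ).coeff q = 1 := by
      have := hm.coeff_natDegree
      rwa [phsFin_natDegree] at this
    rw [hc, mul_one]
  rw [h2, HahnSeries.coeff_sub, phs_rootInf_coeff] at h1
  have h3 : ((phsFin q ζ).coeff i).coeff (-((q : ℤ) * q)) = 0 := by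
    apply (phsFin_coeff_poleLE q ζ i).coeff
    have : (q : ℤ) = i + 1 := by exact_mod_cast hi
    nlinarith
  rw [h3, zero_sub] at h1
  have h4 : (((D.Φ.coeff q).coeff q : ℤ) : k) = ((-1 : ℤ) : k) := by
    rw [← h1]; push_cast; rfl
  exact_mod_cast h4

/-- `φ_0 = X^(q+1) + (lower)`. -/
theorem phs_coeff_zero_coeff (hq : q.Prime) (hζ : IsPrimitiveRoot (ζ : k) q) :
    (D.Φ.coeff 0).coeff (q + 1) = 1 := by
  have h1 := phs_coeff_evalAt_baseS (k := k) q (D.Φ.coeff 0) (q + 1)
    (phs_natDegree_coeff_zero_le q ζ D hq)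
  rw [phs_coeff_zero_eq q ζ D] at h1
  have h2 := phs_coeff_mul ((phs_rootInf_poleLE (k := k) q).neg)
    (phsFin_coeff_poleLE q ζ 0)
  have h3 : -((q : ℤ) * ((q + 1 : ℕ) : ℤ)) = -((q : ℤ) * q + ((q : ℤ) - (0 : ℕ))) := by
    push_cast; ring
  rw [h3, h2, HahnSeries.coeff_neg, phs_rootInf_coeff] at h1
  have h4 : -((q : ℤ) - ((0 : ℕ) : ℤ)) = -(q : ℤ) := by push_cast; ring
  rw [h4, phsFin_coeff_zero_coeff q hq ζ hζ] at h1
  have h5 : (((D.Φ.coeff 0).coeff (q + 1) : ℤ) : k) = ((1 : ℤ) : k) := by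
    rw [← h1]; push_cast; ring
  exact_mod_cast h5

end roots

/-! ### The Kronecker polynomial -/

section kron

/-- The Kronecker polynomial, expanded. -/
theorem phs_kron_expand (q : ℕ) :
    ((X - C (X ^ q)) * (X ^ q - C X) : Polynomial (Polynomial ℤ)) =
      X ^ (q + 1) - C X * X - C (X ^ q) * X ^ q + C (X ^ (q + 1)) := by
  rw [pow_succ (X : Polynomial ℤ), C_mul, C_pow]
  ring

theorem phs_kron_coeff (q b : ℕ) :
    ((X - C (X ^ q)) * (X ^ q - C X) : Polynomial (Polynomial ℤ)).coeff b =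
      (if b = q + 1 then 1 else 0) - (if b = 1 then X else 0) - (if b = q then X ^ q else 0)
        + (if b = 0 then X ^ (q + 1) else 0) := by
  rw [phs_kron_expand, coeff_add, coeff_sub, coeff_sub, coeff_X_pow, coeff_C_mul, coeff_C_mul,
    coeff_X, coeff_X_pow, coeff_C]
  congr 1
  · congr 1
    · congr 1
      split_ifs with h1 h2 h2
      · rw [mul_one]
      · exact absurd h1.symm h2
      · exact absurd h2.symm h1
      · rw [mul_zero]
    · split_ifs <;> simp

theorem phs_kron_coeff_zero (q : ℕ) (hq : 2 ≤ q) :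
    ((X - C (X ^ q)) * (X ^ q - C X) : Polynomial (Polynomial ℤ)).coeff 0 = X ^ (q + 1) := by
  rw [phs_kron_coeff, if_neg (by omega), if_neg (by omega), if_neg (by omega), if_pos rfl]
  ring

theorem phs_kron_coeff_q (q : ℕ) (hq : 2 ≤ q) :
    ((X - C (X ^ q)) * (X ^ q - C X) : Polynomial (Polynomial ℤ)).coeff q = - X ^ q := by
  rw [phs_kron_coeff, if_neg (by omega), if_neg (by omega), if_pos rfl, if_neg (by omega)]
  ring

theorem phs_kron_coeff_natDegree (q b : ℕ) (hq : 2 ≤ q) (hb : 1 ≤ b) :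
    (((X - C (X ^ q)) * (X ^ q - C X) : Polynomial (Polynomial ℤ)).coeff b).natDegree ≤ q := by
  rw [phs_kron_coeff, if_neg (by omega : ¬ b = 0), add_zero]
  refine (natDegree_sub_le _ _).trans (max_le ((natDegree_sub_le _ _).trans (max_le ?_ ?_)) ?_)
  · split_ifs
    · rw [natDegree_one]; exact Nat.zero_le _
    · rw [natDegree_zero]; exact Nat.zero_le _
  · split_ifs
    · rw [natDegree_X]; omega
    · rw [natDegree_zero]; exact Nat.zero_le _
  · split_ifs
    · rw [natDegree_X_pow]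
    · rw [natDegree_zero]; exact Nat.zero_le _

theorem phs_kron_coeff_succ (q : ℕ) (hq : 2 ≤ q) :
    ((X - C (X ^ q)) * (X ^ q - C X) : Polynomial (Polynomial ℤ)).coeff (q + 1) = 1 := by
  rw [phs_kron_coeff, if_pos rfl, if_neg (by omega), if_neg (by omega), if_neg (by omega)]
  ring

theorem phs_kron_coeff_gt (q b : ℕ) (hq : 2 ≤ q) (hb : q + 1 < b) :
    ((X - C (X ^ q)) * (X ^ q - C X) : Polynomial (Polynomial ℤ)).coeff b = 0 := by
  rw [phs_kron_coeff, if_neg (by omega), if_neg (by omega), if_neg (by omega), if_neg (by omega)]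
  ring

end kron

/-! ### Division by `q` -/

theorem phs_natDegree_of_C_mul (q : ℕ) (hq : q ≠ 0) (a r : Polynomial ℤ) (d : ℕ)
    (h : C (q : ℤ) * a = r) (hr : r.natDegree ≤ d) : a.natDegree ≤ d := by
  have hq' : (q : ℤ) ≠ 0 := by exact_mod_cast hq
  rw [← h, natDegree_C_mul hq'] at hr
  exact hr

theorem phs_eq_zero_of_C_mul (q : ℕ) (hq : q ≠ 0) (a : Polynomial ℤ)
    (h : C (q : ℤ) * a = 0) : a = 0 := by
  have hq' : (q : ℤ) ≠ 0 := by exact_mod_cast hq
  rcases mul_eq_zero.mp h with h1 | h1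
  · exact absurd (C_eq_zero.mp h1) hq'
  · exact h1

/-! ### The modular equations -/

section modeq

variable (q : ℕ) [NeZero q]

theorem phs_eval_rootInf {k : Type*} [CommRing k] (ζ : kˣ) (D : HeckeDataOver q k ζ) :
    (D.Φ.map (evalAt (baseS k q))).eval (rootInf k q) = 0 := by
  rw [D.Φ_factor, eval_mul, eval_sub, eval_X, eval_C, sub_self, zero_mul]

theorem phs_eval_jqModC {k : Type*} [CommRing k] (ζ : kˣ) (D : HeckeDataOver q k ζ) :
    (D.Φ.map (evalAt (baseS k q))).eval (jqModC k) = 0 := by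
  rw [D.Φ_factor, eval_mul, eval_prod]
  have hq : 0 ∈ Finset.range q := Finset.mem_range.mpr (Nat.pos_of_ne_zero (NeZero.ne q))
  rw [Finset.prod_eq_zero hq, mul_zero]
  rw [eval_sub, eval_X, eval_C, pow_zero, rootFin, twist_one, sub_self]

/-- Transport of the modular equation at `j` from `ℂ` to any coefficient ring. -/
theorem phs_modeq_jq (Φ : Polynomial (Polynomial ℤ))
    (h : (Φ.map (evalAt (baseS ℂ q))).eval (jqModC ℂ) = 0) (K : Type*) [CommRing K] :
    (Φ.map (evalAt (baseS K q))).eval (jqModC K) = 0 := by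
  have hZ : (Φ.map (evalAt (baseS ℤ q))).eval (jqModC ℤ) = 0 := by
    apply Fermat.Agent.H67.coeffMap_injective_of_injective (Int.castRingHom ℂ)
      Int.cast_injective
    rw [map_zero, Fermat.Agent.H67.coeffMap_eval_L, Fermat.Agent.H67.coeffMap_baseS,
      ModularCurve.coeffMap_jqModC]
    exact h
  have h2 := congrArg (coeffMap (Int.castRingHom K)) hZ
  rw [map_zero, Fermat.Agent.H67.coeffMap_eval_L, Fermat.Agent.H67.coeffMap_baseS,
    ModularCurve.coeffMap_jqModC] at h2
  exact h2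

/-- Transport of the modular equation at `j(t^(q²))` from `ℂ` to any coefficient ring. -/
theorem phs_modeq_inf (Φ : Polynomial (Polynomial ℤ))
    (h : (Φ.map (evalAt (baseS ℂ q))).eval (rootInf ℂ q) = 0) (K : Type*) [CommRing K] :
    (Φ.map (evalAt (baseS K q))).eval (rootInf K q) = 0 := by
  have hZ : (Φ.map (evalAt (baseS ℤ q))).eval (rootInf ℤ q) = 0 := by
    apply Fermat.Agent.H67.coeffMap_injective_of_injective (Int.castRingHom ℂ)
      Int.cast_injective
    rw [map_zero, Fermat.Agent.H67.coeffMap_eval_L, Fermat.Agent.H67.coeffMap_baseS,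
      Fermat.Agent.H67.coeffMap_rootInf]
    exact h
  have h2 := congrArg (coeffMap (Int.castRingHom K)) hZ
  rw [map_zero, Fermat.Agent.H67.coeffMap_eval_L, Fermat.Agent.H67.coeffMap_baseS,
    Fermat.Agent.H67.coeffMap_rootInf] at h2
  exact h2

end modeq

/-! ### PHI-SHARP -/

/-- **PHI-SHARP** (P-SS2 row 1075, WP1 of CUSP11): the modular polynomial of prime level `q` in
Kronecker form with sharp degree bounds. -/
theorem phiSharp (q : ℕ) [NeZero q] (hq : q.Prime) :
    Fermat.Agent.H22.SS2.PhiSharpStatement q := by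
  haveI : Fact q.Prime := ⟨hq⟩
  have hq2 : 2 ≤ q := hq.two_le
  have hq0 : q ≠ 0 := hq.ne_zero
  obtain ⟨D⟩ := Fermat.Agent.H42.exists_heckeDataOver_complex q
  have hζ := Fermat.Agent.H42.kroZeta_isPrimitiveRoot q
  have hK := Fermat.Agent.H42.kronecker_complex q _ hζ D
  obtain ⟨Ψ, hΨ⟩ := Fermat.Agent.H8.SS.exists_kronecker_remainder q D.Φ hK
  have hΨ' : D.Φ = (X - C (X ^ q)) * (X ^ q - C X) + C (C (q : ℤ)) * Ψ := hΨ
  have hcoeff : ∀ b, C (q : ℤ) * Ψ.coeff b = D.Φ.coeff b -
      ((X - C (X ^ q)) * (X ^ q - C X) : Polynomial (Polynomial ℤ)).coeff b := by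
    intro b
    have h := congrArg (fun P => P.coeff b) hΨ'
    simp only [coeff_add, coeff_C_mul] at h
    rw [h]
    ring
  refine ⟨D.Φ, Ψ, D.Φ_monic, D.Φ_natDegree, hΨ', ?_, ?_, ?_, ?_⟩
  · rw [natDegree_le_iff_coeff_eq_zero]
    intro N hN
    apply phs_eq_zero_of_C_mul q hq0
    rw [hcoeff]
    rcases (Nat.succ_le_of_lt hN).eq_or_lt with h | h
    · have h' : N = q + 1 := h.symm
      subst h'
      rw [phs_kron_coeff_succ q hq2]
      have hm := D.Φ_monic.coeff_natDegree
      rw [D.Φ_natDegree] at hm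
      rw [hm, sub_self]
    · rw [phs_kron_coeff_gt q N hq2 h,
        coeff_eq_zero_of_natDegree_lt (by rw [D.Φ_natDegree]; exact h), sub_zero]
  · intro b
    apply phs_natDegree_of_C_mul q hq0 _ _ q (hcoeff b)
    rcases Nat.eq_zero_or_pos b with hb | hb
    · subst hb
      rw [phs_kron_coeff_zero q hq2, natDegree_le_iff_coeff_eq_zero]
      intro N hN
      rw [coeff_sub, coeff_X_pow]
      rcases (Nat.succ_le_of_lt hN).eq_or_lt with h | h
      · have h' : N = q + 1 := h.symm
        subst h'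
        rw [if_pos rfl, phs_coeff_zero_coeff q _ D hq hζ, sub_self]
      · rw [if_neg (by omega), coeff_eq_zero_of_natDegree_lt
          (lt_of_le_of_lt (phs_natDegree_coeff_zero_le q _ D hq) h), sub_zero]
    · exact (natDegree_sub_le _ _).trans
        (max_le (phs_natDegree_coeff_le q _ D hq b hb) (phs_kron_coeff_natDegree q b hq2 hb))
  · have h := congrArg (fun P => P.coeff q) (hcoeff q)
    simp only [coeff_C_mul, coeff_sub] at h
    rw [phs_coeff_q_coeff_q q _ D hq, phs_kron_coeff_q q hq2, coeff_neg, coeff_X_pow,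
      if_pos rfl] at h
    have hq' : (q : ℤ) ≠ 0 := by exact_mod_cast hq0
    have h' : (q : ℤ) * (Ψ.coeff q).coeff q = 0 := by
      rw [h]
      ring
    rcases mul_eq_zero.mp h' with h1 | h1
    · exact absurd h1 hq'
    · exact h1
  · intro K _ _
    exact ⟨phs_modeq_jq q D.Φ (phs_eval_jqModC q _ D) K,
      phs_modeq_inf q D.Φ (phs_eval_rootInf q _ D) K⟩

end Fermat.Agent.H62.SS2
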