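import Mathlib

/-!
# P-SS2 (S36), block (2), formal part: "Kronecker twice"

Mathlib only.  `R` a commutative ring, `q` a prime, `h, h₁ : R` (in the application `h = H`,
`h₁ = H_q = H(qz)`), and the modular polynomial of `h₁` in Kronecker form
`P = (X - h₁^q)(X^q - h₁) + q Ψ`, `deg Ψ ≤ q`, with `P(h) = 0`.  (The roots of `P` are
`T = H(q²z)` and the `H(z + b/q)`, `b < q`; the root `b = 0` is `H` itself.)

Then `P = (X - h) P*` with `P*` monic of degree `q` (the polynomial of `T = H_{q²}` over the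
field of level `q M'`), and in the variable `Z = X - h`

  `P*(Z + h) = Z^(q-1) (Z + Y₁) - X₁ + q G(Z)`,   `X₁ = h₁ - h^q`,  `Y₁ = h - h₁^q`,

and `X₁ Y₁ = q Ψ(h)`.  Hence `P* ≡ Z^(q-1)(Z + Y₁) mod (q, X₁)`, `P* ≡ Z^q - X₁ mod (q, Y₁)`,
and the constant term of `P*(Z + h)` is `-X₁ + q G(0)`.
-/

set_option autoImplicit false

namespace Fermat.Agent.H62.SS2

open Polynomial

variable {R : Type*} [CommRing R]

/-- the Kronecker form is monic of degree `q + 1` -/
theorem kronForm_monic (q : ℕ) (hq : q.Prime) (h₁ : R) (Ψ : R[X]) (hΨ : Ψ.natDegree ≤ q)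
    [Nontrivial R] :
    ((X - C (h₁ ^ q)) * (X ^ q - C h₁) + C (q : R) * Ψ).Monic ∧
      ((X - C (h₁ ^ q)) * (X ^ q - C h₁) + C (q : R) * Ψ).natDegree = q + 1 := by
  have h1 : (X - C (h₁ ^ q) : R[X]).Monic := monic_X_sub_C _
  have h2 : (X ^ q - C h₁ : R[X]).Monic := monic_X_pow_sub_C _ hq.ne_zero
  have h3 : ((X - C (h₁ ^ q)) * (X ^ q - C h₁) : R[X]).Monic := h1.mul h2
  have h4 : ((X - C (h₁ ^ q)) * (X ^ q - C h₁) : R[X]).natDegree = q + 1 := by
    rw [h1.natDegree_mul h2, natDegree_X_sub_C, natDegree_X_pow_sub_C]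
    ring
  have h5 : (C (q : R) * Ψ).degree < ((X - C (h₁ ^ q)) * (X ^ q - C h₁) : R[X]).degree := by
    rw [degree_eq_natDegree h3.ne_zero, h4]
    have h6 : (C (q : R) * Ψ).natDegree ≤ q := (natDegree_C_mul_le _ _).trans hΨ
    refine lt_of_le_of_lt degree_le_natDegree ?_
    exact_mod_cast Nat.lt_succ_of_le h6
  refine ⟨h3.add_of_left h5, ?_⟩
  rw [natDegree_add_eq_left_of_degree_lt h5, h4]

/-- **Kronecker twice**, formal part. -/
theorem kronecker_twice (q : ℕ) (hq : q.Prime) (h h₁ : R) (Ψ : R[X])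
    (hroot : ((X - C (h₁ ^ q)) * (X ^ q - C h₁) + C (q : R) * Ψ).eval h = 0) :
    (h₁ - h ^ q) * (h - h₁ ^ q) = (q : R) * Ψ.eval h ∧
    ∃ Pstar G : R[X],
      (X - C (h₁ ^ q)) * (X ^ q - C h₁) + C (q : R) * Ψ = (X - C h) * Pstar ∧
      Pstar.comp (X + C h) =
        X ^ (q - 1) * (X + C (h - h₁ ^ q)) - C (h₁ - h ^ q) + C (q : R) * G := by
  -- the relation `X₁ Y₁ = q Ψ(h)`
  have hrel : (h₁ - h ^ q) * (h - h₁ ^ q) = (q : R) * Ψ.eval h := by
    simp only [eval_add, eval_mul, eval_sub, eval_X, eval_C, eval_pow] at hroot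
    linear_combination (-1 : R) * hroot
  refine ⟨hrel, ?_⟩
  -- `(Z + h)^q = Z^q + h^q + q Z B`
  obtain ⟨r, hr⟩ := exists_add_pow_prime_eq hq (X : R[X]) (C h)
  set B : R[X] := C h * r with hB
  -- `Ψ(Z + h) = Ψ(h) + Z Ψ₁`
  set Ψt : R[X] := Ψ.comp (X + C h) with hΨt
  have hΨ0 : Ψt.coeff 0 = Ψ.eval h := by
    rw [hΨt, coeff_zero_eq_eval_zero, eval_comp]
    simp
  have hΨ1 : Ψt = Ψt.divX * X + C (Ψ.eval h) := by
    rw [← hΨ0]
    exact (divX_mul_X_add Ψt).symm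
  have hq1 : (X : R[X]) ^ q = X ^ (q - 1) * X := by
    rw [← pow_succ, Nat.sub_add_cancel hq.one_le]
  set Qt : R[X] := X ^ (q - 1) * (X + C (h - h₁ ^ q)) - C (h₁ - h ^ q) +
    C (q : R) * (X * B + C (h - h₁ ^ q) * B + Ψt.divX) with hQt
  -- the shifted polynomial factors as `Z * Qt`
  have hfac : ((X - C (h₁ ^ q)) * (X ^ q - C h₁) + C (q : R) * Ψ).comp (X + C h) = X * Qt := by
    simp only [add_comp, mul_comp, sub_comp, X_comp, C_comp, pow_comp]
    rw [← hΨt, hr, hQt]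
    conv_lhs => rw [hΨ1]
    have hrelC : (C (h₁ - h ^ q) * C (h - h₁ ^ q) : R[X]) = C (q : R) * C (Ψ.eval h) := by
      rw [← C_mul, ← C_mul, hrel]
    have e1 : (C (q : R) : R[X]) = (q : R[X]) := by simp
    rw [hB, hq1]
    simp only [C_sub, C_pow] at hrelC ⊢
    rw [e1] at hrelC ⊢
    linear_combination (-1 : R[X]) * hrelC
  refine ⟨Qt.comp (X - C h), X * B + C (h - h₁ ^ q) * B + Ψt.divX, ?_, ?_⟩
  · have hback : ((X + C h : R[X]).comp (X - C h)) = X := by
      simp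
    have := congrArg (fun p : R[X] => p.comp (X - C h)) hfac
    simp only [comp_assoc, hback, comp_X, mul_comp, X_comp] at this
    exact this
  · rw [comp_assoc]
    have : ((X - C h : R[X]).comp (X + C h)) = X := by simp
    rw [this, comp_X]

/-- **Kronecker twice** with the degree bookkeeping: the cofactor `P*` is monic of degree `q`. -/
theorem kronecker_twice_monic [Nontrivial R] (q : ℕ) (hq : q.Prime) (h h₁ : R) (Ψ : R[X])
    (hΨ : Ψ.natDegree ≤ q)
    (hroot : ((X - C (h₁ ^ q)) * (X ^ q - C h₁) + C (q : R) * Ψ).eval h = 0) :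
    (h₁ - h ^ q) * (h - h₁ ^ q) = (q : R) * Ψ.eval h ∧
    ∃ Pstar G : R[X], Pstar.Monic ∧ Pstar.natDegree = q ∧
      (X - C (h₁ ^ q)) * (X ^ q - C h₁) + C (q : R) * Ψ = (X - C h) * Pstar ∧
      Pstar.comp (X + C h) =
        X ^ (q - 1) * (X + C (h - h₁ ^ q)) - C (h₁ - h ^ q) + C (q : R) * G := by
  obtain ⟨hrel, Pstar, G, hP, hcomp⟩ := kronecker_twice q hq h h₁ Ψ hroot
  obtain ⟨hm, hd⟩ := kronForm_monic q hq h₁ Ψ hΨ
  have hmono : Pstar.Monic := by
    rw [hP] at hm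
    exact (monic_X_sub_C h).of_mul_monic_left hm
  refine ⟨hrel, Pstar, G, hmono, ?_, hP, hcomp⟩
  rw [hP, (monic_X_sub_C h).natDegree_mul hmono, natDegree_X_sub_C] at hd
  omega

/-- Reduction of `P*(Z + h)` modulo an ideal containing `q` and `X₁ = h₁ - h^q`:
it becomes `Z^(q-1) (Z + Y₁)`. -/
theorem kronecker_twice_mod_X (q : ℕ) (h h₁ : R) (Pstar G : R[X])
    (hcomp : Pstar.comp (X + C h) =
        X ^ (q - 1) * (X + C (h - h₁ ^ q)) - C (h₁ - h ^ q) + C (q : R) * G)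
    {S : Type*} [CommRing S] (f : R →+* S) (hfq : f (q : R) = 0) (hfX : f (h₁ - h ^ q) = 0) :
    (Pstar.map f).comp (X + C (f h)) = X ^ (q - 1) * (X + C (f (h - h₁ ^ q))) := by
  have := congrArg (Polynomial.map f) hcomp
  simp only [Polynomial.map_comp, Polynomial.map_add, Polynomial.map_sub, Polynomial.map_mul,
    Polynomial.map_pow, Polynomial.map_X, Polynomial.map_C, hfq, hfX, C_0, zero_mul, add_zero,
    sub_zero] at this
  exact this

/-- Reduction of `P*(Z + h)` modulo an ideal containing `q` and `Y₁ = h - h₁^q`: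
it becomes `Z^q - X₁`. -/
theorem kronecker_twice_mod_Y (q : ℕ) (hq : q.Prime) (h h₁ : R) (Pstar G : R[X])
    (hcomp : Pstar.comp (X + C h) =
        X ^ (q - 1) * (X + C (h - h₁ ^ q)) - C (h₁ - h ^ q) + C (q : R) * G)
    {S : Type*} [CommRing S] (f : R →+* S) (hfq : f (q : R) = 0) (hfY : f (h - h₁ ^ q) = 0) :
    (Pstar.map f).comp (X + C (f h)) = X ^ q - C (f (h₁ - h ^ q)) := by
  have := congrArg (Polynomial.map f) hcomp
  simp only [Polynomial.map_comp, Polynomial.map_add, Polynomial.map_sub, Polynomial.map_mul,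
    Polynomial.map_pow, Polynomial.map_X, Polynomial.map_C, hfq, hfY, C_0, zero_mul, add_zero] at this
  rw [this, ← pow_succ, Nat.sub_add_cancel hq.one_le]

/-- the constant term of `P*(Z + h)`, i.e. `P*(h) = -X₁ + q G(0)`: modulo `q` the cofactor
vanishes at `h` exactly on `X₁ = 0`. -/
theorem kronecker_twice_eval (q : ℕ) (hq : q.Prime) (h h₁ : R) (Pstar G : R[X])
    (hcomp : Pstar.comp (X + C h) =
        X ^ (q - 1) * (X + C (h - h₁ ^ q)) - C (h₁ - h ^ q) + C (q : R) * G) :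
    Pstar.eval h = -(h₁ - h ^ q) + (q : R) * G.eval 0 := by
  have := congrArg (Polynomial.eval (0 : R)) hcomp
  rw [eval_comp] at this
  simp only [eval_add, eval_X, eval_C, zero_add, eval_sub, eval_mul, eval_pow] at this
  rw [this]
  have hq1 : q - 1 ≠ 0 := by have := hq.two_le; omega
  rw [zero_pow hq1]
  ring

end Fermat.Agent.H62.SS2
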