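/-
P-SS2 (S36), KRON2 GENERIC IN THE HAUPTMODUL (helper62): the generic form of row 1043
(helper73 `Fermat.Agent.H73.Kron2.modelKron2`, Hauptmodul `h4S`), for an arbitrary integer series
`u = t⁻¹ + …` lying in the function field of level `M'`, and for EVERY prime `q ∤ M'`
(including `q = 2`).  The level-9 Hauptmodul `h9S` is the instance needed for `q = 2`.

With `X1 = u(t^q) - u^q`, `Y1 = u - u(t^q)^q`, `Z = u(t^(q²)) - u`:
there is `G ∈ E₁[T]` of degree `< q`, with integral coefficients whose `W_q`-images are integral,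
with `-X1 + q G(0) = q B`, `B̄ ≠ 0`, and `Z^(q-1) (Z + Y1) - X1 + q G(Z) = 0` in `E₂`.
-/
import Fermat.Agent.H73.SS2.Kron2Main
import Fermat.Agent.H6.SS2.NormZGen
import Fermat.Agent.H31.SS.Haupt9Member

set_option autoImplicit false
set_option linter.style.haveILetI false
set_option linter.unusedSectionVars false

noncomputable section

namespace Fermat.Agent.H62.SS2

open Polynomial ModularCurve AlgebraicCurve
open Fermat.Agent.H22.KL Fermat.Agent.H8.SS Fermat.Agent.H82.SS Fermat.Agent.H73.Kron2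

/-! ### The series -/

section Series

variable (q : ℕ) [NeZero q] (u : LaurentSeries ℤ)

/-- `X1 = u(t^q) - u^q`. -/
def k2X1 : LaurentSeries ℤ := qExpand ℤ q u - u ^ q

/-- `Y1 = u - u(t^q)^q`. -/
def k2Y1 : LaurentSeries ℤ := u - qExpand ℤ q u ^ q

/-- `Z = u(t^(q²)) - u`. -/
def k2Z : LaurentSeries ℤ := qExpand ℤ q (qExpand ℤ q u) - u

end Series

/-- **KRON2, generic in the Hauptmodul `u`** (the statement). -/
def ModelKron2GenStatement (M' q : ℕ) [NeZero M'] [NeZero q] [Fact q.Prime]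
    (u : LaurentSeries ℤ) : Prop :=
  ∀ (K₁ : Type) [Field K₁] [Algebra ℚ K₁]
    (Wq : ModelField K₁ (M' * q) ≃ₐ[K₁] ModelField K₁ (M' * q)),
    IsAtkinLehnerModel K₁ M' q Wq →
    ∃ G : Polynomial (ModelField K₁ (M' * q)),
      G.natDegree < q ∧
      (∀ i, ∃ g : LaurentSeries ℤ,
        ((G.coeff i : ModelField K₁ (M' * q)) : LaurentSeries K₁) =
          coeffMap (Int.castRingHom K₁) g) ∧
      (∀ i, ∃ g : LaurentSeries ℤ,
        ((Wq (G.coeff i) : ModelField K₁ (M' * q)) : LaurentSeries K₁) =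
          coeffMap (Int.castRingHom K₁) g) ∧
      (∃ B : LaurentSeries ℤ, redQ q B ≠ 0 ∧
        - coeffMap (Int.castRingHom K₁) (k2X1 q u) + (q : LaurentSeries K₁) *
            ((G.coeff 0 : ModelField K₁ (M' * q)) : LaurentSeries K₁) =
          (q : LaurentSeries K₁) * coeffMap (Int.castRingHom K₁) B) ∧
      ∀ (X Y : ModelField K₁ (M' * q)) (Z : ModelField K₁ (M' * q * q)),
        (X : LaurentSeries K₁) = coeffMap (Int.castRingHom K₁) (k2X1 q u) →
        (Y : LaurentSeries K₁) = coeffMap (Int.castRingHom K₁) (k2Y1 q u) →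
        (Z : LaurentSeries K₁) = coeffMap (Int.castRingHom K₁) (k2Z q u) →
        Z ^ (q - 1) * (Z + heckeAlphaBar K₁ (M' * q) q Y) - heckeAlphaBar K₁ (M' * q) q X +
          (q : ModelField K₁ (M' * q * q)) *
            (G.map (heckeAlphaBar K₁ (M' * q) q).toRingHom).eval Z = 0

/-! ### Auxiliary facts in `ℤ((t))` -/

section Aux

variable (q : ℕ) [hq : Fact q.Prime]

theorem k2_two_ne (u : LaurentSeries ℤ) (hu1 : u.coeff (-1) = 1) :
    qExpand ℤ q (qExpand ℤ q u) ≠ u := by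
  haveI : NeZero q := ⟨hq.out.ne_zero⟩
  intro h
  have h1 := congrArg (fun x : LaurentSeries ℤ => x.coeff (-1)) h
  simp only [hu1] at h1
  rw [qExpand_coeff_of_not_dvd] at h1
  · exact zero_ne_one h1
  · intro hdvd
    have h2 : (q : ℤ) ∣ 1 := (dvd_neg.1 hdvd)
    have h3 : (q : ℤ) = 1 := by
      have := Int.eq_one_of_dvd_one (by positivity) h2
      exact this
    have : q = 1 := by exact_mod_cast h3
    exact hq.out.one_lt.ne' this

end Aux

/-! ### The main theorem -/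

section Main

variable (M' q : ℕ) [NeZero M'] [NeZero q] [hq : Fact q.Prime]

/-- The two base points `h`, `h₁` of the graph ring. -/
theorem k2_exists_graph_h (u : LaurentSeries ℤ)
    (K₁ : Type) [Field K₁] [Algebra ℚ K₁]
    (hH : coeffMap (Int.castRingHom K₁) u ∈ laurentBaseChange K₁ (modularFunctionFieldFull M'))
    (Wq : ModelField K₁ (M' * q) ≃ₐ[K₁] ModelField K₁ (M' * q))
    (hW : IsAtkinLehnerModel K₁ M' q Wq) :
    ∃ h h₁ : ↥(graphRing K₁ M' q Wq), pi1 K₁ M' q Wq h = u ∧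
      pi1 K₁ M' q Wq h₁ = qExpand ℤ q u :=
  ⟨⟨(u, heckeAlphaBar K₁ M' q ⟨_, hH⟩), mem_graph_alpha hW u ⟨_, hH⟩ rfl⟩,
    ⟨(qExpand ℤ q u, heckeBetaBar K₁ M' q ⟨_, hH⟩), mem_graph_beta hW u ⟨_, hH⟩ rfl⟩, rfl, rfl⟩

/-- The Kronecker data over the graph ring. -/
theorem k2_exists_graph_kron (u : LaurentSeries ℤ)
    (hmem : coeffMap (Int.castRingHom (AlgebraicClosure ℚ)) u ∈ modularFunctionFieldBar M')
    (hqM : ¬ q ∣ M')
    (K₁ : Type) [Field K₁] [Algebra ℚ K₁]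
    (Wq : ModelField K₁ (M' * q) ≃ₐ[K₁] ModelField K₁ (M' * q))
    (hW : IsAtkinLehnerModel K₁ M' q Wq) :
    ∃ (Pstar G : Polynomial ↥(graphRing K₁ M' q Wq)),
      (X - C u) * Pstar.map (pi1 K₁ M' q Wq) = (heckeU q u).map (qExpand ℤ q) ∧
      (Pstar.map (pi1 K₁ M' q Wq)).comp (X + C u) =
        X ^ (q - 1) * (X + C (k2Y1 q u)) - C (k2X1 q u) +
          C (q : LaurentSeries ℤ) * G.map (pi1 K₁ M' q Wq) ∧
      (Pstar.map (pi1 K₁ M' q Wq)).Monic ∧ (Pstar.map (pi1 K₁ M' q Wq)).natDegree = q := by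
  have hqp : q.Prime := hq.out
  obtain ⟨Ψ, δ, hΨdeg, hΨmem, hΨ, -, -, -, -⟩ := exists_kroneckerU_of_mem q M' hqM u hmem
  have hψ : ∀ i, coeffMap (Int.castRingHom K₁) (Ψ.coeff i) ∈
      laurentBaseChange K₁ (modularFunctionFieldFull M') :=
    fun i => int_mem_model_of_mem_bar K₁ _ _ (hΨmem i)
  have hH : coeffMap (Int.castRingHom K₁) u ∈
      laurentBaseChange K₁ (modularFunctionFieldFull M') :=
    int_mem_model_of_mem_bar K₁ _ _ hmem
  obtain ⟨Ψ', hΨ'deg, hΨ'map⟩ := exists_graph_psi M' q K₁ Wq hW Ψ hΨdeg hψ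
  obtain ⟨h, h₁, hπh, hπh₁⟩ := k2_exists_graph_h M' q u K₁ hH Wq hW
  have hU : (heckeU q u).map (qExpand ℤ q) =
      (X - C (pi1 K₁ M' q Wq h₁ ^ q)) * (X ^ q - C (pi1 K₁ M' q Wq h₁)) +
        C (q : LaurentSeries ℤ) * Ψ'.map (pi1 K₁ M' q Wq) := by
    rw [hΨ, hΨ'map, hπh₁, kronU]
    simp only [Polynomial.map_add, Polynomial.map_sub, Polynomial.map_mul, Polynomial.map_pow,
      Polynomial.map_X, Polynomial.map_C, map_pow, zsmul_eq_mul,
      Int.cast_natCast, Polynomial.C_eq_natCast, Polynomial.map_natCast]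
  have hroot : ((X - C (pi1 K₁ M' q Wq h₁ ^ q)) * (X ^ q - C (pi1 K₁ M' q Wq h₁)) +
      C (q : LaurentSeries ℤ) * Ψ'.map (pi1 K₁ M' q Wq)).eval (pi1 K₁ M' q Wq h) = 0 := by
    rw [← hU, hπh]
    exact heckeU_map_eval_self q u
  obtain ⟨Pstar, G, hfac, hcomp, hmon, hdeg⟩ :=
    kron_transport (pi1 K₁ M' q Wq) pi1_injective q hqp h h₁ Ψ' hΨ'deg hroot
  refine ⟨Pstar, G, ?_, ?_, hmon, hdeg⟩
  · rw [hU, ← hfac, hπh]
  · rw [hπh, hπh₁] at hcomp
    rw [hcomp]
    rfl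

/-- The relation in `ℤ((t))`. -/
theorem k2_rel_int (u : LaurentSeries ℤ) (hu1 : u.coeff (-1) = 1)
    (Pst G₁ : Polynomial (LaurentSeries ℤ))
    (hfac : (X - C u) * Pst = (heckeU q u).map (qExpand ℤ q))
    (hcomp : Pst.comp (X + C u) =
        X ^ (q - 1) * (X + C (k2Y1 q u)) - C (k2X1 q u) + C (q : LaurentSeries ℤ) * G₁) :
    k2Z q u ^ (q - 1) * (k2Z q u + k2Y1 q u) - k2X1 q u +
      (q : LaurentSeries ℤ) * G₁.eval (k2Z q u) = 0 := by
  have h2 : Pst.eval (qExpand ℤ q (qExpand ℤ q u)) = 0 := by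
    have h := congrArg (Polynomial.eval (qExpand ℤ q (qExpand ℤ q u))) hfac
    rw [Polynomial.eval_mul, Polynomial.eval_sub, Polynomial.eval_X, Polynomial.eval_C] at h
    have h' : ((heckeU q u).map (qExpand ℤ q)).eval (qExpand ℤ q (qExpand ℤ q u)) = 0 :=
      heckeU_map_eval_two q u
    rw [h'] at h
    rcases mul_eq_zero.1 h with h0 | h0
    · exact absurd (sub_eq_zero.1 h0) (k2_two_ne q u hu1)
    · exact h0
  have h3 := congrArg (Polynomial.eval (k2Z q u)) hcomp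
  rw [Polynomial.eval_comp, Polynomial.eval_add, Polynomial.eval_X, Polynomial.eval_C] at h3
  have h4 : k2Z q u + u = qExpand ℤ q (qExpand ℤ q u) := by
    unfold k2Z
    ring
  rw [h4, h2] at h3
  rw [h3]
  simp only [Polynomial.eval_add, Polynomial.eval_sub, Polynomial.eval_mul, Polynomial.eval_pow,
    Polynomial.eval_X, Polynomial.eval_C]

/-- the degree of `G` over the graph ring -/
theorem k2_graph_G_natDegree_lt (u : LaurentSeries ℤ)
    (K₁ : Type) [Field K₁] [Algebra ℚ K₁]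
    (Wq : ModelField K₁ (M' * q) ≃ₐ[K₁] ModelField K₁ (M' * q))
    (Pstar G : Polynomial ↥(graphRing K₁ M' q Wq))
    (hcomp : (Pstar.map (pi1 K₁ M' q Wq)).comp (X + C u) =
        X ^ (q - 1) * (X + C (k2Y1 q u)) - C (k2X1 q u) +
          C (q : LaurentSeries ℤ) * G.map (pi1 K₁ M' q Wq))
    (hmon : (Pstar.map (pi1 K₁ M' q Wq)).Monic)
    (hdeg : (Pstar.map (pi1 K₁ M' q Wq)).natDegree = q) :
    (G.map (pi2 K₁ M' q Wq)).natDegree < q := by
  have hqp : q.Prime := hq.out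
  have h1 : (G.map (pi1 K₁ M' q Wq)).natDegree < q := by
    refine natDegree_G_lt q hqp.two_le (natCast_ne_zero_laurent q)
      ((Pstar.map (pi1 K₁ M' q Wq)).comp (X + C u)) _ (k2X1 q u) (k2Y1 q u) ?_ ?_ hcomp
    · refine hmon.comp (monic_X_add_C _) ?_
      rw [natDegree_X_add_C]
      exact one_ne_zero
    · rw [Polynomial.natDegree_comp, hdeg, natDegree_X_add_C, mul_one]
  rw [Polynomial.natDegree_map_eq_of_injective pi1_injective] at h1
  exact lt_of_le_of_lt (Polynomial.natDegree_map_le) h1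

/-- the constant term -/
theorem k2_graph_const (u : LaurentSeries ℤ) (hu1 : u.coeff (-1) = 1)
    (hu : ∀ n : ℤ, n < -1 → u.coeff n = 0)
    (K₁ : Type) [Field K₁] [Algebra ℚ K₁]
    (Wq : ModelField K₁ (M' * q) ≃ₐ[K₁] ModelField K₁ (M' * q))
    (Pstar G : Polynomial ↥(graphRing K₁ M' q Wq))
    (hfac : (X - C u) * Pstar.map (pi1 K₁ M' q Wq) = (heckeU q u).map (qExpand ℤ q))
    (hcomp : (Pstar.map (pi1 K₁ M' q Wq)).comp (X + C u) =
        X ^ (q - 1) * (X + C (k2Y1 q u)) - C (k2X1 q u) +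
          C (q : LaurentSeries ℤ) * G.map (pi1 K₁ M' q Wq)) :
    ∃ B : LaurentSeries ℤ, redQ q B ≠ 0 ∧
        - coeffMap (Int.castRingHom K₁) (k2X1 q u) + (q : LaurentSeries K₁) *
            (((G.map (pi2 K₁ M' q Wq)).coeff 0 : ModelField K₁ (M' * q)) : LaurentSeries K₁) =
          (q : LaurentSeries K₁) * coeffMap (Int.castRingHom K₁) B := by
  have hqp : q.Prime := hq.out
  obtain ⟨B, hB, hBred⟩ := Fermat.Agent.H6.SS2.normZ_gen q u hu1 hu _ hfac
  have heval := Fermat.Agent.H62.SS2.kronecker_twice_eval q hqp u (qExpand ℤ q u)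
    (Pstar.map (pi1 K₁ M' q Wq)) (G.map (pi1 K₁ M' q Wq)) hcomp
  refine ⟨B, hBred, ?_⟩
  rw [Polynomial.coeff_map, coe_pi2, ← Polynomial.coeff_map,
    Polynomial.coeff_zero_eq_eval_zero]
  have h1 : -(k2X1 q u) + (q : LaurentSeries ℤ) * (G.map (pi1 K₁ M' q Wq)).eval 0 =
      (q : LaurentSeries ℤ) * B := by
    rw [← hB, heval]
    rfl
  have h2 := congrArg (coeffMap (Int.castRingHom K₁)) h1
  rw [map_add, map_neg, map_mul, map_mul, map_natCast] at h2
  exact h2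

/-- the relation in `E₂` -/
theorem k2_graph_rel (u : LaurentSeries ℤ) (hu1 : u.coeff (-1) = 1)
    (K₁ : Type) [Field K₁] [Algebra ℚ K₁]
    (Wq : ModelField K₁ (M' * q) ≃ₐ[K₁] ModelField K₁ (M' * q))
    (Pstar G : Polynomial ↥(graphRing K₁ M' q Wq))
    (hfac : (X - C u) * Pstar.map (pi1 K₁ M' q Wq) = (heckeU q u).map (qExpand ℤ q))
    (hcomp : (Pstar.map (pi1 K₁ M' q Wq)).comp (X + C u) =
        X ^ (q - 1) * (X + C (k2Y1 q u)) - C (k2X1 q u) +
          C (q : LaurentSeries ℤ) * G.map (pi1 K₁ M' q Wq))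
    (X Y : ModelField K₁ (M' * q)) (Z : ModelField K₁ (M' * q * q))
    (hX : (X : LaurentSeries K₁) = coeffMap (Int.castRingHom K₁) (k2X1 q u))
    (hY : (Y : LaurentSeries K₁) = coeffMap (Int.castRingHom K₁) (k2Y1 q u))
    (hZ : (Z : LaurentSeries K₁) = coeffMap (Int.castRingHom K₁) (k2Z q u)) :
    Z ^ (q - 1) * (Z + heckeAlphaBar K₁ (M' * q) q Y) - heckeAlphaBar K₁ (M' * q) q X +
      (q : ModelField K₁ (M' * q * q)) *
        ((G.map (pi2 K₁ M' q Wq)).map (heckeAlphaBar K₁ (M' * q) q).toRingHom).eval Z = 0 := by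
  rw [Polynomial.map_map]
  refine rel_transport_if (laurentBaseChange K₁ (modularFunctionFieldFull (M' * q * q)))
    (coeffMap (Int.castRingHom K₁)) (pi1 K₁ M' q Wq)
    ((heckeAlphaBar K₁ (M' * q) q).toRingHom.comp (pi2 K₁ M' q Wq)) ?_ q G Z
    (heckeAlphaBar K₁ (M' * q) q Y) (heckeAlphaBar K₁ (M' * q) q X)
    (k2Z q u) (k2Y1 q u) (k2X1 q u) ?_ ?_ ?_
    (k2_rel_int q u hu1 (Pstar.map (pi1 K₁ M' q Wq)) (G.map (pi1 K₁ M' q Wq)) hfac hcomp)
  · intro r
    exact graph_square M' q K₁ Wq r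
  · rw [hZ]
  · rw [coe_heckeAlphaBar, hY]
  · rw [coe_heckeAlphaBar, hX]

/-- **KRON2, generic in the Hauptmodul**: for every integer series `u = t⁻¹ + …` in the
function field of level `M'` and every prime `q ∤ M'` (`q = 2` allowed). -/
theorem modelKron2Gen (u : LaurentSeries ℤ) (hu1 : u.coeff (-1) = 1)
    (hu : ∀ n : ℤ, n < -1 → u.coeff n = 0)
    (hmem : coeffMap (Int.castRingHom (AlgebraicClosure ℚ)) u ∈ modularFunctionFieldBar M')
    (hqM : ¬ q ∣ M') : ModelKron2GenStatement M' q u := by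
  intro K₁ _ _ Wq hW
  obtain ⟨Pstar, G, hfac, hcomp, hmon, hdeg⟩ :=
    k2_exists_graph_kron M' q u hmem hqM K₁ Wq hW
  refine ⟨G.map (pi2 K₁ M' q Wq),
    k2_graph_G_natDegree_lt M' q u K₁ Wq Pstar G hcomp hmon hdeg,
    ?_, ?_, k2_graph_const M' q u hu1 hu K₁ Wq Pstar G hfac hcomp, ?_⟩
  · intro i
    rw [Polynomial.coeff_map]
    exact ⟨_, coe_pi2 _⟩
  · intro i
    rw [Polynomial.coeff_map]
    exact wq_pi2 _
  · intro X Y Z hX hY hZ
    exact k2_graph_rel M' q u hu1 K₁ Wq Pstar G hfac hcomp X Y Z hX hY hZ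

/-- **KRON2 at level 9** (the Hauptmodul `h9S`; every prime `q ∤ M'`, in particular `q = 2`). -/
theorem modelKron2_h9 (h9 : 9 ∣ M') (hqM : ¬ q ∣ M') :
    ModelKron2GenStatement M' q (Fermat.Agent.H31.SS.h9S ℤ) := by
  refine modelKron2Gen M' q _ (Fermat.Agent.H31.SS.h9S_coeff_neg_one ℤ)
    (fun n hn => Fermat.Agent.H31.SS.h9S_coeff_of_lt ℤ hn) ?_ hqM
  rw [Fermat.Agent.H31.SS.coeffMap_h9S]
  exact Fermat.Agent.H31.SS.h9S_mem_bar M' h9

/-- **KRON2 at level 4** (the Hauptmodul `h4S`; every prime `q ∤ M'`). -/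
theorem modelKron2_h4 (h4 : 4 ∣ M') (hqM : ¬ q ∣ M') :
    ModelKron2GenStatement M' q (h4S ℤ) := by
  refine modelKron2Gen M' q _ (h4S_coeff_neg_one ℤ) (fun n hn => h4S_coeff_of_lt ℤ hn) ?_ hqM
  rw [coeffMap_h4S]
  exact h4S_mem_bar M' h4

end Main

end Fermat.Agent.H62.SS2
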