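/-
P-SS2 row 1109 (SS2-C5f-4 KRON-J), helper62: the Kronecker congruence for `j` itself on the Gauss
valuation `V_∞ = vInf` of level `L = M' q`:

  `j(t^q) / j(t)^q - 1 ∈ 𝔪_{V_∞}`   (`Fermat.Agent.H22.SS2.ModelKronJStatement M' q`).

Proof: `j(t^q) - j^q ∈ 𝔪_∞` is helper7's Frobenius congruence `inM_frob`, and `j^q` is a unit of
`V_∞` (an integer series with leading coefficient `1`).
-/
import Fermat.Agent.H22.SS2.Cusp11Interfaces3
import Fermat.Agent.H7.SS2.RegLModel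
import Fermat.Agent.H86.SS2.Emb3Gauss
import Fermat.Prelude.Thm_ModularCurve_coeff_jqModC_neg_one

set_option autoImplicit false
set_option linter.style.haveILetI false
set_option linter.unusedSectionVars false

noncomputable section

namespace Fermat.Agent.H62.SS2

open ModularCurve AlgebraicCurve
open Fermat.Agent.H22.KL Fermat.Agent.H27 Fermat.Agent.H8.SS Fermat.Agent.H82.SS
open Fermat.Agent.H86.SS2 Fermat.Agent.H7.SS2

/-- the reduction of `j` modulo `q` is nonzero -/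
theorem kj_redQ_jq_ne_zero (q : ℕ) [hq : Fact q.Prime] : redQ q (jqModC ℤ) ≠ 0 := by
  intro h
  rw [redQ_eq_zero_iff] at h
  have h1 := h (-1)
  rw [ModularCurve.coeff_jqModC_neg_one] at h1
  have h2 : q ∣ 1 := by exact_mod_cast h1
  exact hq.out.one_lt.ne' (Nat.dvd_one.mp h2)

/-- **KRON-J** (row 1109). -/
theorem modelKronJ (M' q : ℕ) [NeZero M'] [NeZero q] (hq : q.Prime) :
    Fermat.Agent.H22.SS2.ModelKronJStatement M' q := by
  intro K₁ _ _ _ A₀ _ _ _ _ _ hqm J J₁ hJ hJ₁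
  haveI : Fact q.Prime := ⟨hq⟩
  have hqA : ¬ IsUnit ((q : ℕ) : A₀) := (IsLocalRing.mem_maximalIdeal _).mp hqm
  have hJ' : (J : LaurentSeries K₁) = coeffMap (Int.castRingHom K₁) (jqModC ℤ) := by
    rw [hJ, ModularCurve.coeffMap_jqModC]
  have hJ₁' : (J₁ : LaurentSeries K₁) =
      qExpand K₁ q (coeffMap (Int.castRingHom K₁) (jqModC ℤ)) := by
    rw [hJ₁, ModularCurve.coeffMap_jqModC]
    rfl
  -- the numerator
  have hnum : J₁ - J ^ q ∈ (vInf K₁ A₀ (M' * q)).nonunits := by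
    rw [mem_nonunits_vInf_iff]
    have h1 : ((J₁ - J ^ q : ModelField K₁ (M' * q)) : LaurentSeries K₁)
        = qExpand K₁ q (coeffMap (Int.castRingHom K₁) (jqModC ℤ))
          - (coeffMap (Int.castRingHom K₁) (jqModC ℤ)) ^ q := by
      rw [← hJ₁', ← hJ']
      rfl
    rw [h1]
    refine inM_frob _ q hq hqA (jqModC ℤ) ?_
    rw [← h1]
    exact (J₁ - J ^ q).2
  -- the denominator
  have hJu : IsVUnit (vInf K₁ A₀ (M' * q)) J :=
    isVUnit_gaussVal_of_int (laurentBaseChange K₁ (modularFunctionFieldFull (M' * q)))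
      (Fermat.Agent.H7.SS.hasGNF_model K₁ A₀ (M' * q)) q hqm J (jqModC ℤ) hJ' (kj_redQ_jq_ne_zero q)
  have hden : IsVUnit (vInf K₁ A₀ (M' * q)) (J ^ q) := hJu.pow q
  have hne : J ^ q ≠ 0 := hden.ne_zero
  have heq : J₁ / J ^ q - 1 = (J₁ - J ^ q) * (J ^ q)⁻¹ := by
    field_simp
  rw [heq]
  exact Fermat.Agent.H86.SS2.nonunits_mul_mem hnum hden.inv_mem

end Fermat.Agent.H62.SS2
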