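import Mathlib

/-!
# P-SS2 (S36): norms on local Artinian algebras (norm reduction with multiplicities)

Mathlib only.  `κ` a field, `C` a finite-dimensional commutative local `κ`-algebra with residue
field `κ' = C / 𝔫`.  Then for every `x : C`

  `Algebra.norm κ x = (Algebra.norm κ (residue x)) ^ ℓ`,  `ℓ = dim_κ C / [κ' : κ]` (the length of
  `C`).

More generally the determinant of the action of `x` on any `C`-module `M` of finite dimension over
`κ` is `(Algebra.norm κ (residue x)) ^ ℓ(M)`.

Application (P-SS2, findings #406, step (3)): reduction of a norm at a branch of multiplicity `e`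
(`C = B_P / 𝔪 B_P`, `ℓ = e`): `red (N f) = ∏_branches (N_{κ_i/κ} (red_i f)) ^ (e_i)`.
-/

set_option autoImplicit false

universe u v w

namespace Fermat.Agent.H62.SS2

open IsLocalRing Module

section

variable {κ : Type v} [Field κ] {C : Type w} [CommRing C] [Algebra κ C]

/-- the `κ`-linear endomorphism "multiplication by `x`" of a `C`-module -/
noncomputable def actK (M : Type u) [AddCommGroup M] [Module C M] [Module κ M]
    [IsScalarTower κ C M] (x : C) : M →ₗ[κ] M :=
  (LinearMap.lsmul C M x).restrictScalars κ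

@[simp]
theorem actK_apply (M : Type u) [AddCommGroup M] [Module C M] [Module κ M]
    [IsScalarTower κ C M] (x : C) (m : M) : actK (κ := κ) M x m = x • m := rfl

/-- in a nonzero module over a local Artinian ring there is a nonzero element killed by the
maximal ideal -/
theorem exists_socle {C : Type w} [CommRing C] [IsLocalRing C] [IsArtinianRing C]
    (M : Type u) [AddCommGroup M] [Module C M] [Nontrivial M] :
    ∃ m : M, m ≠ 0 ∧ ∀ c ∈ maximalIdeal C, c • m = 0 := by
  have hnil : IsNilpotent (maximalIdeal C) := by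
    have h := IsArtinianRing.isNilpotent_jacobson_bot (R := C)
    rwa [IsLocalRing.jacobson_eq_maximalIdeal ⊥ bot_ne_top] at h
  obtain ⟨k, hk⟩ := hnil
  have key : ∀ k : ℕ, ∀ m₀ : M, m₀ ≠ 0 → (∀ c ∈ (maximalIdeal C) ^ k, c • m₀ = 0) →
      ∃ m : M, m ≠ 0 ∧ ∀ c ∈ maximalIdeal C, c • m = 0 := by
    intro k
    induction k with
    | zero =>
      intro m₀ hm₀ h
      exfalso
      apply hm₀
      have := h 1 (by simp)
      simpa using this
    | succ k ih =>
      intro m₀ hm₀ h
      by_cases hk' : ∀ c ∈ (maximalIdeal C) ^ k, c • m₀ = 0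
      · exact ih m₀ hm₀ hk'
      · push Not at hk'
        obtain ⟨c, hc, hcm⟩ := hk'
        refine ⟨c • m₀, hcm, fun c' hc' => ?_⟩
        rw [smul_smul]
        apply h
        rw [pow_succ']
        exact Ideal.mul_mem_mul hc' hc
  obtain ⟨m₀, hm₀⟩ := exists_ne (0 : M)
  refine key k m₀ hm₀ fun c hc => ?_
  rw [hk] at hc
  have : c = 0 := by simpa using hc
  rw [this, zero_smul]

end


section step

variable {κ : Type v} [Field κ] {C : Type w} [CommRing C] [Algebra κ C] [IsLocalRing C]
  (M : Type u) [AddCommGroup M] [Module C M] [Module κ M] [IsScalarTower κ C M]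

/-- the map `C/𝔫 → M`, `c̄ ↦ c • m`, for `m` killed by `𝔫` -/
noncomputable def socleMap (m : M) (hm : ∀ c ∈ maximalIdeal C, c • m = 0) :
    ResidueField C →ₗ[C] M :=
  Submodule.liftQ (maximalIdeal C) (LinearMap.toSpanSingleton C M m) (by
    intro c hc
    rw [LinearMap.mem_ker, LinearMap.toSpanSingleton_apply]
    exact hm c hc)

theorem socleMap_residue (m : M) (hm : ∀ c ∈ maximalIdeal C, c • m = 0) (c : C) :
    socleMap M m hm (residue C c) = c • m := rfl

theorem socleMap_injective (m : M) (hm0 : m ≠ 0) (hm : ∀ c ∈ maximalIdeal C, c • m = 0) :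
    Function.Injective (socleMap M m hm) := by
  rw [← LinearMap.ker_eq_bot, LinearMap.ker_eq_bot']
  intro a ha
  obtain ⟨c, rfl⟩ := residue_surjective a
  rw [socleMap_residue] at ha
  by_contra hne
  have hunit : IsUnit c := by
    by_contra hnu
    exact hne ((residue_eq_zero_iff c).2 ((mem_maximalIdeal c).2 hnu))
  obtain ⟨u, rfl⟩ := hunit
  apply hm0
  have : (u⁻¹ : Cˣ) • ((u : C) • m) = m := by
    rw [Units.smul_def, smul_smul, Units.inv_mul, one_smul]
  rw [← this, ha, smul_zero]

variable [Module.Finite κ C] [Module.Finite κ M]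

/-- **one step**: splitting off a copy of the residue field -/
theorem det_actK_step (m : M) (hm0 : m ≠ 0) (hm : ∀ c ∈ maximalIdeal C, c • m = 0) (x : C) :
    LinearMap.det (actK (κ := κ) M x) =
        Algebra.norm κ (residue C x) *
          LinearMap.det (actK (κ := κ) (M ⧸ LinearMap.range (socleMap M m hm)) x) ∧
      finrank κ M = finrank κ (ResidueField C) +
        finrank κ (M ⧸ LinearMap.range (socleMap M m hm)) := by
  set S : Submodule C M := LinearMap.range (socleMap M m hm) with hS
  set W : Submodule κ M := S.restrictScalars κ with hW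
  have he : W ≤ W.comap (actK (κ := κ) M x) := by
    intro w hw
    rw [Submodule.mem_comap, actK_apply]
    exact S.smul_mem x hw
  -- the equivalence `κ' ≃ W`
  let ψ₁ : ResidueField C →ₗ[κ] W :=
    LinearMap.codRestrict W ((socleMap M m hm).restrictScalars κ) (fun a => ⟨a, rfl⟩)
  have hψinj : Function.Injective ψ₁ := by
    intro a b hab
    apply socleMap_injective M m hm0 hm
    exact congrArg Subtype.val hab
  have hψsurj : Function.Surjective ψ₁ := by
    rintro ⟨w, a, rfl⟩
    exact ⟨a, rfl⟩
  let ψ : ResidueField C ≃ₗ[κ] W := LinearEquiv.ofBijective ψ₁ ⟨hψinj, hψsurj⟩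
  -- the equivalence of the quotients
  let e : (M ⧸ W) ≃ₗ[κ] (M ⧸ S) := Submodule.Quotient.restrictScalarsEquiv κ S
  have h1 := LinearMap.det_eq_det_mul_det W (actK (κ := κ) M x) he
  have h2 : LinearMap.det ((actK (κ := κ) M x).restrict he) = Algebra.norm κ (residue C x) := by
    rw [Algebra.norm_apply, ← LinearMap.det_conj _ ψ]
    congr 1
    apply LinearMap.ext
    intro w
    obtain ⟨a, rfl⟩ := ψ.surjective w
    apply Subtype.ext
    simp only [LinearMap.coe_comp, LinearEquiv.coe_coe, Function.comp_apply,
      LinearEquiv.symm_apply_apply]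
    show x • socleMap M m hm a = socleMap M m hm (residue C x * a)
    rw [← map_smul]
    congr 1
  have h3 : LinearMap.det (W.mapQ W (actK (κ := κ) M x) he) =
      LinearMap.det (actK (κ := κ) (M ⧸ S) x) := by
    rw [← LinearMap.det_conj _ e]
    congr 1
    apply LinearMap.ext
    intro z
    obtain ⟨z, rfl⟩ := Submodule.Quotient.mk_surjective S z
    rfl
  refine ⟨by rw [h1, h2, h3], ?_⟩
  have h4 := Submodule.finrank_quotient_add_finrank W
  rw [← h4, ← LinearEquiv.finrank_eq ψ, ← LinearEquiv.finrank_eq e, add_comm]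

end step

section main

variable {κ : Type v} [Field κ] {C : Type w} [CommRing C] [Algebra κ C] [IsLocalRing C]
  [Module.Finite κ C]

omit [IsLocalRing C] in
theorem finite_quotient' (M : Type u) [AddCommGroup M] [Module C M] [Module κ M]
    [IsScalarTower κ C M] [Module.Finite κ M] (S : Submodule C M) : Module.Finite κ (M ⧸ S) :=
  Module.Finite.of_surjective (S.mkQ.restrictScalars κ) (Submodule.mkQ_surjective S)

theorem finite_residueField : Module.Finite κ (ResidueField C) :=
  Module.Finite.of_surjective ((IsScalarTower.toAlgHom κ C (ResidueField C)).toLinearMap)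
    residue_surjective

theorem det_actK_aux (n : ℕ) : ∀ (M : Type u) [AddCommGroup M] [Module C M] [Module κ M]
    [IsScalarTower κ C M] [Module.Finite κ M], finrank κ M = n →
    ∃ ℓ : ℕ, finrank κ M = ℓ * finrank κ (ResidueField C) ∧
      ∀ x : C, LinearMap.det (actK (κ := κ) M x) = (Algebra.norm κ (residue C x)) ^ ℓ := by
  induction n using Nat.strong_induction_on with
  | _ n ih =>
    intro M _ _ _ _ _ hn
    rcases subsingleton_or_nontrivial M with hsub | hnt
    · refine ⟨0, ?_, fun x => ?_⟩
      · rw [zero_mul]; exact Module.finrank_zero_of_subsingleton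
      · rw [pow_zero]; exact LinearMap.det_eq_one_of_subsingleton _
    · have hart : IsArtinianRing C := IsArtinianRing.of_finite κ C
      obtain ⟨m, hm0, hm⟩ := exists_socle (C := C) M
      have hfin : Module.Finite κ (M ⧸ LinearMap.range (socleMap M m hm)) :=
        finite_quotient' M _
      have hstep := fun x => det_actK_step (κ := κ) M m hm0 hm x
      have hrank := (hstep 1).2
      have hfr : Module.Finite κ (ResidueField C) := finite_residueField
      have hpos : 0 < finrank κ (ResidueField C) := Module.finrank_pos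
      obtain ⟨ℓ', hℓ', hdet'⟩ := ih (finrank κ (M ⧸ LinearMap.range (socleMap M m hm)))
        (by omega) (M ⧸ LinearMap.range (socleMap M m hm)) rfl
      refine ⟨ℓ' + 1, ?_, fun x => ?_⟩
      · rw [hrank, hℓ']; ring
      · rw [(hstep x).1, hdet' x, pow_succ]; ring

/-- determinant of the action of `x` on a `C`-module of finite `κ`-dimension -/
theorem det_actK (M : Type u) [AddCommGroup M] [Module C M] [Module κ M]
    [IsScalarTower κ C M] [Module.Finite κ M] :
    ∃ ℓ : ℕ, finrank κ M = ℓ * finrank κ (ResidueField C) ∧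
      ∀ x : C, LinearMap.det (actK (κ := κ) M x) = (Algebra.norm κ (residue C x)) ^ ℓ :=
  det_actK_aux _ M rfl

/-- **Norm on a local Artinian algebra**: `N_{C/κ}(x) = N_{κ'/κ}(x̄) ^ ℓ`, `ℓ [κ' : κ] = dim_κ C`. -/
theorem exists_norm_eq_pow :
    ∃ ℓ : ℕ, finrank κ C = ℓ * finrank κ (ResidueField C) ∧
      ∀ x : C, Algebra.norm κ x = (Algebra.norm κ (residue C x)) ^ ℓ := by
  obtain ⟨ℓ, h1, h2⟩ := det_actK (κ := κ) (C := C) C
  refine ⟨ℓ, h1, fun x => ?_⟩
  rw [← h2 x, Algebra.norm_apply]
  congr 1

/-- explicit exponent -/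
theorem norm_eq_pow_div (x : C) :
    Algebra.norm κ x =
      (Algebra.norm κ (residue C x)) ^ (finrank κ C / finrank κ (ResidueField C)) := by
  obtain ⟨ℓ, h1, h2⟩ := exists_norm_eq_pow (κ := κ) (C := C)
  have hfr : Module.Finite κ (ResidueField C) := finite_residueField
  have hpos : 0 < finrank κ (ResidueField C) := Module.finrank_pos
  rw [h2 x, h1, Nat.mul_div_cancel _ hpos]

/-- **residue degree one**: if `κ → C/𝔫` is onto and `x ≡ a mod 𝔫`, `a ∈ κ`, then
`N_{C/κ}(x) = a ^ (dim_κ C)`. -/
theorem norm_eq_pow_of_residue_eq (hsurj : Function.Surjective (algebraMap κ (ResidueField C)))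
    (x : C) (a : κ) (hxa : residue C x = algebraMap κ (ResidueField C) a) :
    Algebra.norm κ x = a ^ finrank κ C := by
  have hbij : Function.Bijective (algebraMap κ (ResidueField C)) :=
    ⟨(algebraMap κ (ResidueField C)).injective, hsurj⟩
  have h1 : finrank κ (ResidueField C) = 1 := by
    have e : κ ≃ₗ[κ] ResidueField C :=
      LinearEquiv.ofBijective (Algebra.linearMap κ (ResidueField C)) hbij
    rw [← LinearEquiv.finrank_eq e, Module.finrank_self]
  rw [norm_eq_pow_div, hxa, Algebra.norm_algebraMap, h1, pow_one, Nat.div_one]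

end main

end Fermat.Agent.H62.SS2
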