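/-
P-SS2 (S36), RED GENERIC IN THE HAUPTMODUL (helper62): the generic form of row 1044
(helper90 `Fermat.Agent.H90.SS2Red.modelRed`, Hauptmodul `h4S`, `q` odd), for an arbitrary integer
series `u = t⁻¹ + a₀ + …` with `q ∤ a₀`, and EVERY prime `q` (including `q = 2`).

With `X1 = u(t^q) - u^q`, `Y1 = u - u(t^q)^q`, `Z = u(t^(q²)) - u`, `X2 = u(t^(q²)) - u(t^q)^q`:
`Ȳ1 ≠ 0`, `Z̄ ≠ 0`, `X1 = q δ`, `X2 = q δ(t^q)` with `δ̄ ≠ 0`.

Instance: the level-9 Hauptmodul `h9S = t⁻¹ - 3 + …` (so every prime `q ≠ 3`, in particular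
`q = 2`).
-/
import Fermat.Agent.H62.SS2.Kron2Gen
import Fermat.Agent.H90.SS2.ModelRed

set_option autoImplicit false
set_option linter.style.haveILetI false
set_option linter.unusedSectionVars false

noncomputable section

namespace Fermat.Agent.H62.SS2

open PowerSeries ModularCurve Fermat.Agent.H8.SS Fermat.Agent.H90.SS2Red

/-- `X2 = u(t^(q²)) - u(t^q)^q`. -/
def k2X2 (q : ℕ) [NeZero q] (u : LaurentSeries ℤ) : LaurentSeries ℤ :=
  qExpand ℤ q (qExpand ℤ q u) - qExpand ℤ q u ^ q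

theorem k2X2_eq (q : ℕ) [NeZero q] (u : LaurentSeries ℤ) :
    k2X2 q u = k2Z q u + k2Y1 q u := by
  unfold k2X2 k2Z k2Y1
  ring

/-- **RED, generic in the Hauptmodul `u`** (the statement). -/
def ModelRedGenStatement (q : ℕ) [NeZero q] [Fact q.Prime] (u : LaurentSeries ℤ) : Prop :=
  redQ q (k2Y1 q u) ≠ 0 ∧ redQ q (k2Z q u) ≠ 0 ∧
    ∃ δ : LaurentSeries ℤ, k2X1 q u = (q : LaurentSeries ℤ) * δ ∧
      k2X2 q u = (q : LaurentSeries ℤ) * qExpand ℤ q δ ∧ redQ q δ ≠ 0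

/-- `δ̄ ≠ 0`: the reduction of the Frobenius defect of `u = t⁻¹ + a₀ + …`, `q ∤ a₀`. -/
theorem k2_redQ_delta_ne_zero (q : ℕ) [NeZero q] [Fact q.Prime] (u₀ : LaurentSeries ℤ)
    (hu₀1 : u₀.coeff (-1) = 1) (hu₀0 : ¬ (q : ℤ) ∣ u₀.coeff 0)
    (δ : LaurentSeries ℤ) (hδ : qExpand ℤ q u₀ = u₀ ^ q + (q : ℤ) • δ) :
    redQ q δ ≠ 0 := by
  have hq : q.Prime := Fact.out
  haveI : Fact (1 < q) := ⟨hq.one_lt⟩
  intro hδ0
  have hθ := theta_delta_mod q u₀ δ hδ
  rw [hδ0, map_zero] at hθ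
  set u : LaurentSeries (ZMod q) := redQ q u₀ with hu
  set w : LaurentSeries (ZMod q) := theta u with hw
  have hu1 : u.coeff (-1) = 1 := by
    rw [hu, coeffMap_coeff, hu₀1]
    simp
  have hu0 : u.coeff 0 = ((u₀.coeff 0 : ℤ) : ZMod q) := by
    rw [hu, coeffMap_coeff]
    simp
  have hu_ne : u ≠ 0 := by
    intro h0
    rw [h0, HahnSeries.coeff_zero] at hu1
    exact zero_ne_one hu1
  have hw1 : w.coeff (-1) = -1 := by
    rw [hw, theta_coeff, hu1]
    simp
  have hw0 : w.coeff 0 = 0 := by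
    rw [hw, theta_coeff]
    simp
  have hwq : w ^ q = u ^ (q - 1) * w := by
    have := sub_eq_zero.mp hθ.symm
    exact this
  have hq1 : q - 1 + 1 = q := Nat.sub_add_cancel hq.one_le
  -- `c = w / u` is fixed by Frobenius
  set c : LaurentSeries (ZMod q) := w / u with hc
  have hcu : c * u = w := div_mul_cancel₀ w hu_ne
  have hcq : c ^ q = c := by
    have hpow : ∀ x : LaurentSeries (ZMod q), x ^ q = x ^ (q - 1) * x := by
      intro x
      rw [← pow_succ, hq1]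
    have h1 : c ^ q * u ^ q = c * u ^ q := by
      rw [← mul_pow, hcu, hwq, ← hcu, hpow u]
      ring
    exact mul_right_cancel₀ (pow_ne_zero q hu_ne) h1
  have hfix : qExpand (ZMod q) q c = c := by
    rw [← Fermat.Agent.H42.laurent_pow_eq_qExpand, hcq]
  have hC := eq_C_of_qExpand_eq q hq.two_le c hfix
  set a : ZMod q := c.coeff 0 with ha
  have hwa : ∀ n : ℤ, w.coeff n = a * u.coeff n := by
    intro n
    rw [← hcu, hC, HahnSeries.C_mul_eq_smul, HahnSeries.coeff_smul, smul_eq_mul]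
  have ha1 : a = -1 := by
    have := hwa (-1)
    rw [hw1, hu1, mul_one] at this
    exact this.symm
  have h8 : ((u₀.coeff 0 : ℤ) : ZMod q) = 0 := by
    have := hwa 0
    rw [hw0, hu0, ha1] at this
    have h' : (0 : ZMod q) = -((u₀.coeff 0 : ℤ) : ZMod q) := by rw [this]; ring
    exact neg_eq_zero.mp h'.symm
  exact hu₀0 ((ZMod.intCast_zmod_eq_zero_iff_dvd _ q).mp h8)

/-- **RED, generic in the Hauptmodul**: for every integer series `u = t⁻¹ + a₀ + …` with
`q ∤ a₀` and every prime `q` (`q = 2` allowed). -/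
theorem modelRedGen (q : ℕ) [NeZero q] [Fact q.Prime] (u : LaurentSeries ℤ)
    (hu1 : u.coeff (-1) = 1) (hu0 : ¬ (q : ℤ) ∣ u.coeff 0) : ModelRedGenStatement q u := by
  have hq : q.Prime := Fact.out
  have hnd : ¬ (q : ℤ) ∣ (-1 : ℤ) := not_dvd_neg_one hq.two_le
  haveI : Fact (1 < q) := ⟨hq.one_lt⟩
  have hH1 : (qExpand ℤ q u ^ q).coeff (-1) = 0 := by
    rw [← map_pow]
    exact qExpand_coeff_of_not_dvd q _ hnd
  have hH2 : (qExpand ℤ q (qExpand ℤ q u)).coeff (-1) = 0 :=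
    qExpand_coeff_of_not_dvd q _ hnd
  refine ⟨?_, ?_, ?_⟩
  · intro h
    have h1 := congrArg (fun z : LaurentSeries (ZMod q) => z.coeff (-1)) h
    simp only [coeffMap_coeff, HahnSeries.coeff_zero] at h1
    have hc : (k2Y1 q u).coeff (-1) = 1 := by
      unfold k2Y1
      rw [HahnSeries.coeff_sub, hu1, hH1, sub_zero]
    rw [hc] at h1
    simp at h1
  · intro h
    have h1 := congrArg (fun z : LaurentSeries (ZMod q) => z.coeff (-1)) h
    simp only [coeffMap_coeff, HahnSeries.coeff_zero] at h1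
    have hc : (k2Z q u).coeff (-1) = -1 := by
      unfold k2Z
      rw [HahnSeries.coeff_sub, hu1, hH2, zero_sub]
    rw [hc] at h1
    simp at h1
  · obtain ⟨δ, hδ⟩ := exists_delta q u
    refine ⟨δ, ?_, ?_, k2_redQ_delta_ne_zero q u hu1 hu0 δ hδ⟩
    · unfold k2X1
      rw [hδ, add_sub_cancel_left, zsmul_eq_mul]
      simp
    · unfold k2X2
      rw [← map_pow, ← map_sub, hδ, add_sub_cancel_left, zsmul_eq_mul, map_mul]
      simp

/-! ### The level-9 Hauptmodul: `h9S = t⁻¹ - 3 + …` -/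

section H9

open Fermat.Agent.H1.ESD Fermat.Agent.H31.SS

theorem k2_coeff_one_pA : coeff 1 pA = -12 := by
  have h := coeff_one_dedekindEtaUnit
  rw [dedekindEtaUnit_eq_sq, pow_two, coeff_one_mul, constantCoeff_pA] at h
  linarith

theorem k2_coeff_one_ex3 (f : ℤ⟦X⟧) : coeff 1 (ex3 f) = 0 :=
  PowerSeries.coeff_expand_of_not_dvd 3 (by norm_num) f (by norm_num)

theorem k2_coeff_one_t3Num : coeff 1 t3Num = -12 := by
  rw [t3Num, coeff_one_mul, constantCoeff_pA, k2_coeff_one_ex3, k2_coeff_one_pA, ex3,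
    PowerSeries.constantCoeff_expand, constantCoeff_pAinv]
  norm_num

theorem k2_coeff_one_h9NumU : coeff 1 h9NumU = -6 := by
  have e : h9NumU = X ^ 2 * (1458 * X ^ 2 * t3Num + 27 * ex3 t3Num) +
      ex3 t3Num * (t3Num ^ 2 + 18 * (X * t3Num)) := by
    rw [h9NumU]; ring
  rw [e, map_add, coeff_one_mul, coeff_one_mul, map_add, map_add, pow_two t3Num, coeff_one_mul,
    map_mul, coeff_one_mul, k2_coeff_one_ex3, k2_coeff_one_t3Num, constantCoeff_ex3,
    constantCoeff_t3Num]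
  simp [PowerSeries.coeff_X_pow, constantCoeff_t3Num, k2_coeff_one_t3Num, coeff_one_mul,
    map_ofNat]

theorem k2_coeff_one_h9DenU : coeff 1 h9DenU = -3 := by
  have e : h9DenU = (t3Num + 9 * X) * ex3 t3Num + X ^ 2 * (- 243 * X * t3Num + 729 * X ^ 2) := by
    rw [h9DenU]; ring
  rw [e, map_add, coeff_one_mul, coeff_one_mul, k2_coeff_one_ex3, constantCoeff_ex3,
    constantCoeff_t3Num, map_add (coeff 1), k2_coeff_one_t3Num]
  simp [PowerSeries.coeff_X_pow, coeff_one_mul, map_ofNat]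

theorem k2_coeff_one_h9DenUinv : coeff 1 h9DenUinv = 3 := by
  have h := congrArg (coeff 1) h9DenU_mul_inv
  rw [coeff_one_mul, constantCoeff_h9DenU, constantCoeff_h9DenUinv, k2_coeff_one_h9DenU] at h
  simp at h
  linarith

theorem k2_coeff_one_h9U : coeff 1 h9U = -3 := by
  rw [h9U, coeff_one_mul, constantCoeff_h9NumU, constantCoeff_h9DenUinv, k2_coeff_one_h9NumU,
    k2_coeff_one_h9DenUinv]
  norm_num

/-- `H₉ = t⁻¹ - 3 + …` -/
theorem k2_h9S_coeff_zero (k : Type*) [CommRing k] : (h9S k).coeff 0 = -3 := by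
  rw [h9S_coeff, show (0 : ℤ) + 1 = ((1 : ℕ) : ℤ) by norm_num,
    HahnSeries.ofPowerSeries_apply_coeff, PowerSeries.coeff_map, k2_coeff_one_h9U]
  simp

/-- **RED at level 9** (the Hauptmodul `h9S`; every prime `q ≠ 3`, in particular `q = 2`). -/
theorem modelRed_h9 (q : ℕ) [NeZero q] [Fact q.Prime] (hq3 : q ≠ 3) :
    ModelRedGenStatement q (h9S ℤ) := by
  have hq : q.Prime := Fact.out
  refine modelRedGen q _ (h9S_coeff_neg_one ℤ) ?_
  rw [k2_h9S_coeff_zero]
  intro h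
  have h1 : (q : ℤ) ∣ 3 := (Int.dvd_neg).mp h
  have h2 : q ∣ 3 := by exact_mod_cast h1
  exact hq3 ((Nat.prime_dvd_prime_iff_eq hq Nat.prime_three).mp h2)

end H9

end Fermat.Agent.H62.SS2
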